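import Mathlib
import Fermat.Agent.S54.FrobExists
import Fermat.Agent.LT.T7.H37.ThinSpec

/-!
# Row LT, tower T7, leaf T7.13a `DegenC` (helper682), OFF-MAIN

    degenC682 : Fermat.Agent.LT.T7.H37.DegenC          (VERBATIM, unconditional)

Registry row 1269, spec `LT/T7/H37/ThinSpec.lean` of helper37 (sha256 4c697dce), byte-identical
copy; `Fermat.Agent.S54.exists_frobenius` (main) for the existence of Frobenius elements.

The proof is the group theory of `GL₂(𝔽₃)` and of the lift `Ψ`, by Cayley--Hamilton in size two: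
* `det g ≠ 1`: `g² = 1` or `g⁴ = -1`, so `g² ∈ Q8`, and `MidData` is `a_v = tr Ψ (g²)`;
* `det g = 1`: `g² = -1` or `g³ = ± 1`; for `g ∈ Q8`, `MidData` is `a_v = tr Ψ g`;
  for `g³ = ε = ± 1`, `g ≠ ε`: `g, g² ∉ Q8`, `tr Ψ g = -ε`, `MidData` is `a³ - 3 a = 2 ε`,
  so `a = -ε` (the true value) or `a = 2 ε`;
* the true values are `± 2`, `0`, `± 1`, so `|a_v| ≤ 2` in all cases;
* every finite place lies over a prime number, every prime number has a Frobenius element, and
  finitely many places lie over a finite set of primes.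
-/

set_option autoImplicit false

open AutomorphicForm FLT.ExplicitLift
open IsDedekindDomain NumberField
open scoped MatrixGroups

noncomputable section

namespace Fermat.Agent.LT.T7.H682

open Fermat.Agent.LT.H130 Fermat.Agent.LT.T7

local notation "Γℚ" => (AlgebraicClosure ℚ ≃ₐ[ℚ] AlgebraicClosure ℚ)

/-! ## 0. Cayley--Hamilton in size two -/

theorem ch2_682 {R : Type*} [CommRing R] (M : Matrix (Fin 2) (Fin 2) R) :
    M * M = M.trace • M - M.det • (1 : Matrix (Fin 2) (Fin 2) R) := by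
  ext i j
  fin_cases i <;> fin_cases j <;>
    simp [Matrix.mul_apply, Fin.sum_univ_two, Matrix.det_fin_two, Matrix.trace_fin_two] <;> ring

/-! ## 1. `GL₂(𝔽₃)` -/

theorem zmod3_cases682 : ∀ s : ZMod 3, s = 0 ∨ s = 1 ∨ s = -1 := by decide

theorem zmod3_unit682 : ∀ x : ZMod 3, x ≠ 0 → x ≠ 1 → x = -1 := by decide

theorem zmod3_three682 : ∀ x : ZMod 3, x + x + x = 0 := by decide

theorem mat3_three682 (X : Matrix (Fin 2) (Fin 2) (ZMod 3)) : X + X + X = 0 := by
  ext i j
  simp only [Matrix.add_apply, Matrix.zero_apply]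
  exact zmod3_three682 _

theorem coe_det682 (g : GL (Fin 2) (ZMod 3)) :
    ((Matrix.GeneralLinearGroup.det g : (ZMod 3)ˣ) : ZMod 3)
      = (g : Matrix (Fin 2) (Fin 2) (ZMod 3)).det := rfl

/-- `SL₂(𝔽₃)`: `g² = -1` or `g³ = -1` or `g³ = 1`. -/
theorem sl_cases682 (g : GL (Fin 2) (ZMod 3)) (hdet : Matrix.GeneralLinearGroup.det g = 1) :
    g * g = -1 ∨ g * g * g = -1 ∨ g * g * g = 1 := by
  set A : Matrix (Fin 2) (Fin 2) (ZMod 3) := (g : Matrix (Fin 2) (Fin 2) (ZMod 3)) with hA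
  have hd : A.det = 1 := by
    rw [hA, ← coe_det682, hdet]
    rfl
  have hch := ch2_682 A
  rw [hd, one_smul] at hch
  rcases zmod3_cases682 A.trace with hs | hs | hs
  · left
    apply Units.ext
    show A * A = -1
    rw [hch, hs, zero_smul, zero_sub]
  · right; left
    apply Units.ext
    show A * A * A = -1
    rw [hs, one_smul] at hch
    calc A * A * A = (A - 1) * A := by rw [hch]
      _ = A * A - A := by noncomm_ring
      _ = (A - 1) - A := by rw [hch]
      _ = -1 := by abel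
  · right; right
    apply Units.ext
    show A * A * A = 1
    rw [hs, neg_smul, one_smul] at hch
    calc A * A * A = (-A - 1) * A := by rw [hch]
      _ = -(A * A) - A := by noncomm_ring
      _ = -(-A - 1) - A := by rw [hch]
      _ = 1 := by abel

/-- `GL₂(𝔽₃) ∖ SL₂(𝔽₃)`: `g² = 1` or `g⁴ = -1`. -/
theorem gl_cases682 (g : GL (Fin 2) (ZMod 3)) (hdet : Matrix.GeneralLinearGroup.det g ≠ 1) :
    g * g = 1 ∨ (g * g) * (g * g) = -1 := by
  set A : Matrix (Fin 2) (Fin 2) (ZMod 3) := (g : Matrix (Fin 2) (Fin 2) (ZMod 3)) with hA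
  have hd : A.det = -1 := by
    rw [hA, ← coe_det682]
    refine zmod3_unit682 _ (Units.ne_zero _) ?_
    intro h1
    exact hdet (Units.ext h1)
  have hch := ch2_682 A
  rw [hd, neg_smul, one_smul, sub_neg_eq_add] at hch
  rcases zmod3_cases682 A.trace with hs | hs | hs
  · left
    apply Units.ext
    show A * A = 1
    rw [hch, hs, zero_smul, zero_add]
  · right
    apply Units.ext
    show (A * A) * (A * A) = -1
    rw [hs, one_smul] at hch
    have h3 := mat3_three682 (A + 1)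
    calc (A * A) * (A * A) = (A + 1) * (A + 1) := by rw [hch]
      _ = A * A + A + A + 1 := by noncomm_ring
      _ = (A + 1) + A + A + 1 := by rw [hch]
      _ = ((A + 1) + (A + 1) + (A + 1)) - 1 := by abel
      _ = -1 := by rw [h3, zero_sub]
  · right
    apply Units.ext
    show (A * A) * (A * A) = -1
    rw [hs, neg_smul, one_smul] at hch
    have h3 := mat3_three682 (-A + 1)
    calc (A * A) * (A * A) = (-A + 1) * (-A + 1) := by rw [hch]
      _ = A * A - A - A + 1 := by noncomm_ring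
      _ = (-A + 1) - A - A + 1 := by rw [hch]
      _ = ((-A + 1) + (-A + 1) + (-A + 1)) - 1 := by abel
      _ = -1 := by rw [h3, zero_sub]

theorem neg_one_mul_neg_one682 : (-1 : GL (Fin 2) (ZMod 3)) * (-1) = 1 := by simp

theorem one_ne_neg_one682 : (1 : GL (Fin 2) (ZMod 3)) ≠ -1 := by
  intro h
  have h1 := congrArg (fun x : GL (Fin 2) (ZMod 3) =>
    (x : Matrix (Fin 2) (Fin 2) (ZMod 3)) 0 0) h
  simp at h1
  revert h1
  decide

theorem det_neg_one682 : Matrix.GeneralLinearGroup.det (-1 : GL (Fin 2) (ZMod 3)) = 1 := by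
  apply Units.ext
  rw [coe_det682]
  simp [Matrix.det_fin_two]

/-! ## 2. `Q8` and the two orders -/

theorem ordSL_of_det682 {g : GL (Fin 2) (ZMod 3)} (h : Matrix.GeneralLinearGroup.det g = 1) :
    ordSL g = 1 := by
  unfold ordSL
  exact if_pos h

theorem ordSL_of_not_det682 {g : GL (Fin 2) (ZMod 3)}
    (h : Matrix.GeneralLinearGroup.det g ≠ 1) : ordSL g = 2 := by
  unfold ordSL
  exact if_neg h

theorem ordQ8_of_inQ8_682 {g : GL (Fin 2) (ZMod 3)} (h : InQ8 g) : ordQ8 g = 1 := by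
  unfold ordQ8
  exact if_pos h

theorem ordQ8_three682 {g : GL (Fin 2) (ZMod 3)} (h : ¬ InQ8 g) (h2 : ¬ InQ8 (g ^ 2)) :
    ordQ8 g = 3 := by
  unfold ordQ8
  rw [if_neg h, if_neg h2]

/-- An element of `SL₂(𝔽₃)` with `g³ = ε` (`ε = ± 1`) other than `ε` is not in `Q8`, nor is its
square. -/
theorem not_inQ8_of_cube682 {g ε : GL (Fin 2) (ZMod 3)} (hε : ε * ε = 1)
    (h3 : g * g * g = ε) (hne : g ≠ ε) : ¬ InQ8 g ∧ ¬ InQ8 (g ^ 2) := by
  constructor
  · rintro ⟨-, h4⟩
    apply hne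
    have e : g ^ 4 = g * (g * g * g) := by
      simp only [pow_succ, pow_zero, one_mul, mul_assoc]
    rw [e, h3] at h4
    calc g = g * (ε * ε) := by rw [hε, mul_one]
      _ = (g * ε) * ε := by group
      _ = ε := by rw [h4, one_mul]
  · rintro ⟨-, h8⟩
    apply hne
    have e : (g ^ 2) ^ 4 = (g * g * g) * (g * g * g) * (g * g) := by
      simp only [pow_succ, pow_zero, one_mul, mul_assoc]
    rw [e, h3, hε, one_mul] at h8
    have e' : g * g * g = g := by rw [h8, one_mul]
    rw [← e', h3]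

/-! ## 3. Arithmetic of `ℤ[√-2]` -/

theorem zsqrtd_mul_eq_zero682 {x y : ℤ√(-2)} (h : x * y = 0) (hx : x ≠ 0) : y = 0 := by
  have hn : (x * y).norm = 0 := by rw [h]; simp [Zsqrtd.norm]
  rw [Zsqrtd.norm_mul] at hn
  rcases mul_eq_zero.mp hn with h1 | h1
  · exact absurd ((Zsqrtd.norm_eq_zero_iff (by norm_num) x).mp h1) hx
  · exact (Zsqrtd.norm_eq_zero_iff (by norm_num) y).mp h1

theorem zsqrtd_sq_ne_neg_one682 (x : ℤ√(-2)) : x * x ≠ -1 := by
  intro h
  have h1 := congrArg Zsqrtd.re h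
  have h2 := congrArg Zsqrtd.im h
  simp only [Zsqrtd.re_mul, Zsqrtd.im_mul, Zsqrtd.re_neg, Zsqrtd.im_neg, Zsqrtd.re_one,
    Zsqrtd.im_one] at h1 h2
  have h3 : x.re * x.im = 0 := by linarith
  rcases mul_eq_zero.mp h3 with h0 | h0
  · rw [h0] at h1
    have : 2 * (x.im * x.im) = 1 := by linarith
    omega
  · rw [h0] at h1
    nlinarith [mul_self_nonneg x.re]

/-- An element of `ℤ[√-2]` of norm one is `± 1`. -/
theorem zsqrtd_norm_one682 (x : ℤ√(-2)) (h : x.norm = 1) : x = 1 ∨ x = -1 := by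
  rw [Zsqrtd.norm_def] at h
  have him : x.im = 0 := by
    by_contra hne
    have h1 : 1 ≤ x.im * x.im := by
      rcases lt_or_gt_of_ne hne with h0 | h0
      · nlinarith
      · nlinarith
    nlinarith [mul_self_nonneg x.re]
  rw [him] at h
  have hre : x.re * x.re = 1 := by linarith
  have hre' : x.re = 1 ∨ x.re = -1 := by
    have h0 : (x.re - 1) * (x.re + 1) = 0 := by ring_nf; linarith
    rcases mul_eq_zero.mp h0 with h1 | h1
    · left; linarith
    · right; linarith
  rcases hre' with h1 | h1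
  · left
    exact Zsqrtd.ext (by simpa using h1) (by simpa using him)
  · right
    exact Zsqrtd.ext (by simpa using h1) (by simpa using him)

/-- A cube root of `± 1` in `ℤ[√-2]` is `± 1`. -/
theorem zsqrtd_cube682 (x : ℤ√(-2)) (h : x * x * x = 1 ∨ x * x * x = -1) : x = 1 ∨ x = -1 := by
  apply zsqrtd_norm_one682
  have hn : x.norm * x.norm * x.norm = 1 := by
    rw [← Zsqrtd.norm_mul, ← Zsqrtd.norm_mul]
    rcases h with h | h
    · rw [h]; simp [Zsqrtd.norm_def]
    · rw [h]; simp [Zsqrtd.norm_def]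
  have h0 : 0 ≤ x.norm := Zsqrtd.norm_nonneg (by norm_num) x
  have hn' : x.norm * (x.norm * x.norm) = 1 := by rw [← hn]; ring
  exact Int.eq_one_of_mul_eq_one_right h0 hn'

theorem red_one_ne682 : red (1 : ℤ√(-2)) ≠ -1 := by
  rw [map_one]
  decide

/-! ## 4. The lift `Ψ` -/

section Lift

variable (Ψ : GL (Fin 2) (ZMod 3) →* GL (Fin 2) (ℤ√(-2)))

/-- The matrix of `Ψ g`. -/
def lm682 (g : GL (Fin 2) (ZMod 3)) : Matrix (Fin 2) (Fin 2) (ℤ√(-2)) :=
  ((Ψ g : GL (Fin 2) (ℤ√(-2))) : Matrix (Fin 2) (Fin 2) (ℤ√(-2)))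

theorem trΨ_eq682 (ι : ℤ√(-2) →+* ℂ) (g : GL (Fin 2) (ZMod 3)) :
    trΨ Ψ ι g = ι (lm682 Ψ g).trace := rfl

theorem lm_one682 : lm682 Ψ 1 = 1 := by
  simp [lm682]

theorem lm_mul682 (g h : GL (Fin 2) (ZMod 3)) : lm682 Ψ (g * h) = lm682 Ψ g * lm682 Ψ h := by
  simp [lm682]

variable {Ψ}

theorem red_lm682 (hΨ : ∀ g, Matrix.GeneralLinearGroup.map red (Ψ g) = g)
    (g : GL (Fin 2) (ZMod 3)) (i j : Fin 2) :
    red (lm682 Ψ g i j) = (g : Matrix (Fin 2) (Fin 2) (ZMod 3)) i j := by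
  have h2 := congrArg
    (fun x : GL (Fin 2) (ZMod 3) => (x : Matrix (Fin 2) (Fin 2) (ZMod 3)) i j) (hΨ g)
  simpa [lm682] using h2

/-- `k • N = m • 1` with `k ≠ 0`: `N` is a scalar matrix. -/
theorem scalar_of_smul682 {N : Matrix (Fin 2) (Fin 2) (ℤ√(-2))} {k m : ℤ√(-2)} (hk : k ≠ 0)
    (h : k • N = m • (1 : Matrix (Fin 2) (Fin 2) (ℤ√(-2)))) :
    N = N 0 0 • (1 : Matrix (Fin 2) (Fin 2) (ℤ√(-2))) := by
  have e00 := congrFun (congrFun h 0) 0
  have e01 := congrFun (congrFun h 0) 1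
  have e10 := congrFun (congrFun h 1) 0
  have e11 := congrFun (congrFun h 1) 1
  simp only [Matrix.smul_apply, smul_eq_mul, Matrix.one_apply_eq, mul_one, ne_eq,
    zero_ne_one, one_ne_zero, not_false_eq_true, Matrix.one_apply_ne, mul_zero] at e00 e01 e10 e11
  have h01 : N 0 1 = 0 := zsqrtd_mul_eq_zero682 e01 hk
  have h10 : N 1 0 = 0 := zsqrtd_mul_eq_zero682 e10 hk
  have h11 : N 1 1 = N 0 0 := by
    have : k * (N 1 1 - N 0 0) = 0 := by rw [mul_sub, e00, e11, sub_self]
    exact sub_eq_zero.mp (zsqrtd_mul_eq_zero682 this hk)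
  refine Matrix.ext fun i j => ?_
  fin_cases i <;> fin_cases j <;> simp [h01, h10, h11]

/-- `Ψ (-1) = -1`. -/
theorem lm_neg_one682 (hΨ : ∀ g, Matrix.GeneralLinearGroup.map red (Ψ g) = g) :
    lm682 Ψ (-1) = -1 := by
  set T := lm682 Ψ (-1) with hT
  have hTT : T * T = 1 := by
    rw [hT, ← lm_mul682, neg_one_mul_neg_one682, lm_one682]
  have hr : ∀ i j, red (T i j) = (-1 : Matrix (Fin 2) (Fin 2) (ZMod 3)) i j := by
    intro i j
    rw [hT, red_lm682 hΨ]
    simp
  have h00 : red (T 0 0) = -1 := by simpa using hr 0 0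
  have h11 : red (T 1 1) = -1 := by simpa using hr 1 1
  have hch := ch2_682 T
  rw [hTT] at hch
  have htr : T.trace ≠ 0 := by
    intro h0
    have h1 : red T.trace = 0 := by rw [h0, map_zero]
    rw [Matrix.trace_fin_two, map_add, h00, h11] at h1
    revert h1
    decide
  have hsm : T.trace • T = (1 + T.det) • (1 : Matrix (Fin 2) (Fin 2) (ℤ√(-2))) := by
    rw [add_smul, one_smul]
    rw [eq_sub_iff_add_eq] at hch
    rw [← hch]
  have hsc := scalar_of_smul682 htr hsm
  have hcc : T 0 0 * T 0 0 = 1 := by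
    have := congrFun (congrFun hTT 0) 0
    rw [hsc] at this
    simpa [Matrix.mul_apply, Fin.sum_univ_two] using this
  have hc : T 0 0 = -1 := by
    have h0 : (T 0 0 - 1) * (T 0 0 + 1) = 0 := by
      have : (T 0 0 - 1) * (T 0 0 + 1) = T 0 0 * T 0 0 - 1 := by ring
      rw [this, hcc, sub_self]
    by_cases h1 : T 0 0 - 1 = 0
    · exfalso
      have : T 0 0 = 1 := sub_eq_zero.mp h1
      rw [this] at h00
      exact red_one_ne682 h00
    · exact eq_neg_of_add_eq_zero_left (zsqrtd_mul_eq_zero682 h0 h1)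
  rw [hsc, hc]
  simp

/-- If `h * h = -1` in `GL₂(𝔽₃)` then `Ψ h` has trace `0`. -/
theorem trace_lm_eq_zero682 (hΨ : ∀ g, Matrix.GeneralLinearGroup.map red (Ψ g) = g)
    (h : GL (Fin 2) (ZMod 3)) (hh : h * h = -1) : (lm682 Ψ h).trace = 0 := by
  set T := lm682 Ψ h with hT
  have hTT : T * T = -1 := by
    rw [hT, ← lm_mul682, hh, lm_neg_one682 hΨ]
  have hch := ch2_682 T
  rw [hTT] at hch
  by_contra htr
  have hsm : T.trace • T = (T.det - 1) • (1 : Matrix (Fin 2) (Fin 2) (ℤ√(-2))) := by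
    rw [sub_smul, one_smul]
    rw [eq_sub_iff_add_eq] at hch
    rw [← hch]
    abel
  have hsc := scalar_of_smul682 htr hsm
  have hcc : T 0 0 * T 0 0 = -1 := by
    have := congrFun (congrFun hTT 0) 0
    rw [hsc] at this
    simpa [Matrix.mul_apply, Fin.sum_univ_two] using this
  exact zsqrtd_sq_ne_neg_one682 _ hcc

/-- If `g³ = ε = ± 1` in `GL₂(𝔽₃)` and `g ≠ ε`, then `tr Ψ g = -ε`. -/
theorem trace_lm_cube682 (g : GL (Fin 2) (ZMod 3)) (e : ℤ√(-2)) (he : e = 1 ∨ e = -1)
    (h3 : lm682 Ψ g * lm682 Ψ g * lm682 Ψ g = e • (1 : Matrix (Fin 2) (Fin 2) (ℤ√(-2))))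
    (hne : lm682 Ψ g ≠ e • (1 : Matrix (Fin 2) (Fin 2) (ℤ√(-2)))) :
    (lm682 Ψ g).trace = -e := by
  set T := lm682 Ψ g with hT
  have hch := ch2_682 T
  set s := T.trace with hs
  set d := T.det with hd
  -- T³ = (s² - d) T - s d
  have hcube : (s * s - d) • T = (e + s * d) • (1 : Matrix (Fin 2) (Fin 2) (ℤ√(-2))) := by
    have h1 : T * T * T = (s * s - d) • T - (s * d) • (1 : Matrix (Fin 2) (Fin 2) (ℤ√(-2))) := by
      calc T * T * T = (s • T - d • (1 : Matrix (Fin 2) (Fin 2) (ℤ√(-2)))) * T := by rw [← hch]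
        _ = s • (T * T) - d • T := by
            rw [sub_mul, Matrix.smul_mul, Matrix.smul_mul, Matrix.one_mul]
        _ = s • (s • T - d • (1 : Matrix (Fin 2) (Fin 2) (ℤ√(-2)))) - d • T := by rw [← hch]
        _ = (s * s - d) • T - (s * d) • (1 : Matrix (Fin 2) (Fin 2) (ℤ√(-2))) := by
            rw [smul_sub, smul_smul, smul_smul, sub_smul]
            abel
    rw [h3] at h1
    rw [add_smul, h1]
    abel
  have ee : e * e * e = e := by
    rcases he with h | h <;> rw [h] <;> ring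
  by_cases hk : s * s - d = 0
  · rw [hk, zero_smul] at hcube
    have h00 := congrFun (congrFun hcube 0) 0
    simp only [Matrix.zero_apply, Matrix.smul_apply, Matrix.one_apply_eq, smul_eq_mul,
      mul_one] at h00
    have hd' : d = s * s := (sub_eq_zero.mp hk).symm
    have hs3 : s * s * s = -e := by
      have : e + s * (s * s) = 0 := by rw [← hd']; exact h00.symm
      linear_combination this
    have hs1 : s = 1 ∨ s = -1 := by
      apply zsqrtd_cube682
      rcases he with h | h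
      · right; rw [hs3, h]
      · left; rw [hs3, h]; ring
    rcases hs1 with h | h
    · rw [h] at hs3 ⊢
      rw [← hs3]; ring
    · rw [h] at hs3 ⊢
      rw [← hs3]; ring
  · exfalso
    have hsc := scalar_of_smul682 hk hcube
    have hc3 : T 0 0 * T 0 0 * T 0 0 = e := by
      have := congrFun (congrFun h3 0) 0
      rw [hsc] at this
      simpa [Matrix.mul_apply, Fin.sum_univ_two] using this
    have hc1 : T 0 0 = 1 ∨ T 0 0 = -1 := by
      apply zsqrtd_cube682
      rcases he with h | h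
      · left; rw [hc3, h]
      · right; rw [hc3, h]
    have hc : T 0 0 = e := by
      rcases hc1 with h | h
      · rw [h] at hc3 ⊢
        rw [← hc3]; ring
      · rw [h] at hc3 ⊢
        rw [← hc3]; ring
    apply hne
    rw [hsc, hc]

theorem psi_inj682 (hΨ : ∀ g, Matrix.GeneralLinearGroup.map red (Ψ g) = g) :
    Function.Injective Ψ := fun g h e => by rw [← hΨ g, ← hΨ h, e]

theorem eq_of_lm_eq682 (hΨ : ∀ g, Matrix.GeneralLinearGroup.map red (Ψ g) = g)
    {g h : GL (Fin 2) (ZMod 3)} (e : lm682 Ψ g = lm682 Ψ h) : g = h :=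
  psi_inj682 hΨ (Units.ext e)

end Lift

/-! ## 5. The values in `ℂ` -/

section Values

variable {Ψ : GL (Fin 2) (ZMod 3) →* GL (Fin 2) (ℤ√(-2))} (ι : ℤ√(-2) →+* ℂ)

theorem trΨ_one682 : trΨ Ψ ι 1 = 2 := by
  rw [trΨ_eq682, lm_one682, Matrix.trace_fin_two]
  simp only [Matrix.one_apply_eq, map_add, map_one]
  norm_num

theorem trΨ_neg_one682 (hΨ : ∀ g, Matrix.GeneralLinearGroup.map red (Ψ g) = g) :
    trΨ Ψ ι (-1) = -2 := by
  rw [trΨ_eq682, lm_neg_one682 hΨ, Matrix.trace_fin_two]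
  simp only [Matrix.neg_apply, Matrix.one_apply_eq, map_add, map_neg, map_one]
  norm_num

theorem satakePow_three682 (a : ℂ) : satakePow 3 a 1 = a ^ 3 - 3 * a := by
  simp only [satakePow]
  ring

theorem pow_four_eq682 (g : GL (Fin 2) (ZMod 3)) : g ^ 4 = (g * g) * (g * g) := by
  simp only [pow_succ, pow_zero, one_mul, mul_assoc]

theorem pow_three_eq682 (g : GL (Fin 2) (ZMod 3)) : g ^ 3 = g * g * g := by
  simp only [pow_succ, pow_zero, one_mul]

theorem inQ8_one682 : InQ8 (1 : GL (Fin 2) (ZMod 3)) := ⟨map_one _, one_pow _⟩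

theorem inQ8_neg_one682 : InQ8 (-1 : GL (Fin 2) (ZMod 3)) :=
  ⟨det_neg_one682, by rw [pow_four_eq682, neg_one_mul_neg_one682, one_mul]⟩

theorem inQ8_of_sq682 {g : GL (Fin 2) (ZMod 3)} (hdet : Matrix.GeneralLinearGroup.det g = 1)
    (h : g * g = -1) : InQ8 g :=
  ⟨hdet, by rw [pow_four_eq682, h, neg_one_mul_neg_one682]⟩

theorem det_sq682 (g : GL (Fin 2) (ZMod 3)) (hdet : Matrix.GeneralLinearGroup.det g ≠ 1) :
    Matrix.GeneralLinearGroup.det (g ^ 2) = 1 := by
  rw [map_pow]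
  apply Units.ext
  have h1 : ((Matrix.GeneralLinearGroup.det g : (ZMod 3)ˣ) : ZMod 3) = -1 := by
    refine zmod3_unit682 _ (Units.ne_zero _) ?_
    intro h1
    exact hdet (Units.ext h1)
  rw [Units.val_pow_eq_pow_val, h1]
  decide

variable {ι}

/-- **The pointwise statement.** -/
theorem point682 (hΨ : ∀ g, Matrix.GeneralLinearGroup.map red (Ψ g) = g)
    (g : GL (Fin 2) (ZMod 3)) (a b : ℂ)
    (h1 : satakePow (ordQ8 (g ^ ordSL g)) a b
        = trΨ Ψ ι ((g ^ ordSL g) ^ ordQ8 (g ^ ordSL g)))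
    (hb : b = 1) :
    (a = trΨ Ψ ι (g ^ ordSL g) ∨
      (Matrix.GeneralLinearGroup.det g = 1 ∧ ‖a‖ ^ 2 = 4 ∧
        ‖trΨ Ψ ι (g ^ ordSL g)‖ ^ 2 = 1)) ∧
    ‖a‖ ≤ 2 := by
  subst hb
  by_cases hdet : Matrix.GeneralLinearGroup.det g = 1
  · rw [ordSL_of_det682 hdet, pow_one] at h1 ⊢
    rcases sl_cases682 g hdet with h2 | h3 | h3
    · -- `g² = -1`
      rw [ordQ8_of_inQ8_682 (inQ8_of_sq682 hdet h2), pow_one, satakePow_one] at h1
      have ht : trΨ Ψ ι g = 0 := by rw [trΨ_eq682, trace_lm_eq_zero682 hΨ g h2, map_zero]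
      refine ⟨Or.inl h1, ?_⟩
      rw [h1, ht]
      norm_num
    · -- `g³ = -1`
      by_cases hg : g = -1
      · rw [hg] at h1 ⊢
        rw [ordQ8_of_inQ8_682 inQ8_neg_one682, pow_one, satakePow_one] at h1
        refine ⟨Or.inl h1, ?_⟩
        rw [h1, trΨ_neg_one682 ι hΨ]
        norm_num
      · obtain ⟨hn1, hn2⟩ := not_inQ8_of_cube682 neg_one_mul_neg_one682 h3 hg
        rw [ordQ8_three682 hn1 hn2, pow_three_eq682, h3, trΨ_neg_one682 ι hΨ,
          satakePow_three682] at h1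
        have ht : trΨ Ψ ι g = 1 := by
          have h := trace_lm_cube682 (Ψ := Ψ) g (-1) (Or.inr rfl)
            (by rw [← lm_mul682, ← lm_mul682, h3, lm_neg_one682 hΨ]; simp)
            (by
              intro h
              apply hg
              apply eq_of_lm_eq682 hΨ
              rw [h, lm_neg_one682 hΨ]
              simp)
          rw [trΨ_eq682, h]
          simp
        have hfac : (a + 2) * ((a - 1) * (a - 1)) = 0 := by linear_combination h1
        rcases mul_eq_zero.mp hfac with h | h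
        · have ha : a = -2 := by linear_combination h
          refine ⟨Or.inr ⟨hdet, ?_, ?_⟩, ?_⟩
          · rw [ha]; norm_num
          · rw [ht]; norm_num
          · rw [ha]; norm_num
        · have ha : a = 1 := by
            rcases mul_eq_zero.mp h with h | h <;> linear_combination h
          refine ⟨Or.inl (by rw [ha, ht]), ?_⟩
          rw [ha]; norm_num
    · -- `g³ = 1`
      by_cases hg : g = 1
      · rw [hg] at h1 ⊢
        rw [ordQ8_of_inQ8_682 inQ8_one682, pow_one, satakePow_one] at h1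
        refine ⟨Or.inl h1, ?_⟩
        rw [h1, trΨ_one682 ι]
        norm_num
      · obtain ⟨hn1, hn2⟩ := not_inQ8_of_cube682 (one_mul 1) h3 hg
        rw [ordQ8_three682 hn1 hn2, pow_three_eq682, h3, trΨ_one682 ι,
          satakePow_three682] at h1
        have ht : trΨ Ψ ι g = -1 := by
          have h := trace_lm_cube682 (Ψ := Ψ) g 1 (Or.inl rfl)
            (by rw [← lm_mul682, ← lm_mul682, h3, lm_one682]; simp)
            (by
              intro h
              apply hg
              apply eq_of_lm_eq682 hΨ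
              rw [h, lm_one682]
              simp)
          rw [trΨ_eq682, h]
          simp
        have hfac : (a - 2) * ((a + 1) * (a + 1)) = 0 := by linear_combination h1
        rcases mul_eq_zero.mp hfac with h | h
        · have ha : a = 2 := by linear_combination h
          refine ⟨Or.inr ⟨hdet, ?_, ?_⟩, ?_⟩
          · rw [ha]; norm_num
          · rw [ht]; norm_num
          · rw [ha]; norm_num
        · have ha : a = -1 := by
            rcases mul_eq_zero.mp h with h | h <;> linear_combination h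
          refine ⟨Or.inl (by rw [ha, ht]), ?_⟩
          rw [ha]; norm_num
  · rw [ordSL_of_not_det682 hdet] at h1 ⊢
    have hd2 := det_sq682 g hdet
    rcases gl_cases682 g hdet with h2 | h4
    · have e2 : g ^ 2 = 1 := by rw [pow_two, h2]
      rw [e2] at h1 ⊢
      rw [ordQ8_of_inQ8_682 inQ8_one682, pow_one, satakePow_one] at h1
      refine ⟨Or.inl h1, ?_⟩
      rw [h1, trΨ_one682 ι]
      norm_num
    · have h4' : g ^ 2 * g ^ 2 = -1 := by rw [pow_two, h4]
      rw [ordQ8_of_inQ8_682 (inQ8_of_sq682 hd2 h4'), pow_one, satakePow_one] at h1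
      have ht : trΨ Ψ ι (g ^ 2) = 0 := by
        rw [trΨ_eq682, trace_lm_eq_zero682 hΨ (g ^ 2) h4', map_zero]
      refine ⟨Or.inl h1, ?_⟩
      rw [h1, ht]
      norm_num

end Values

/-! ## 6. Places and primes -/

section Places

variable {K : Type} [Field K] [NumberField K]

/-- A prime ideal containing a non-zero natural number contains a prime number. -/
theorem exists_prime_of_mem682 {R : Type*} [CommRing R] (P : Ideal R) [P.IsPrime] :
    ∀ n : ℕ, n ≠ 0 → ((n : ℕ) : R) ∈ P → ∃ p : ℕ, p.Prime ∧ ((p : ℕ) : R) ∈ P := by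
  intro n
  induction n using Nat.strong_induction_on with
  | _ n ih =>
    intro hn hmem
    have hn1 : n ≠ 1 := by
      rintro rfl
      rw [Nat.cast_one] at hmem
      exact (Ideal.IsPrime.ne_top ‹_›) ((Ideal.eq_top_iff_one P).mpr hmem)
    have hp := Nat.minFac_prime hn1
    obtain ⟨m, hm⟩ := Nat.minFac_dvd n
    have hcast : ((n : ℕ) : R) = ((n.minFac : ℕ) : R) * ((m : ℕ) : R) := by
      rw [← Nat.cast_mul, ← hm]
    rw [hcast] at hmem
    rcases Ideal.IsPrime.mem_or_mem ‹_› hmem with h | h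
    · exact ⟨n.minFac, hp, h⟩
    · have hm0 : m ≠ 0 := by
        rintro rfl
        rw [mul_zero] at hm
        exact hn hm
      have hlt : m < n := by
        have h2 : 2 ≤ n.minFac := hp.two_le
        have hmpos : 0 < m := Nat.pos_of_ne_zero hm0
        calc m < n.minFac * m := by nlinarith
          _ = n := hm.symm
      exact ih m hlt hm0 h

/-- Every finite place of a number field lies over a prime number. -/
theorem exists_prime_mem682 (v : HeightOneSpectrum (𝓞 K)) :
    ∃ p : ℕ, p.Prime ∧ ((p : ℕ) : 𝓞 K) ∈ v.asIdeal := by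
  have := v.isPrime
  refine exists_prime_of_mem682 v.asIdeal (Ideal.absNorm v.asIdeal) ?_
    (Ideal.absNorm_mem v.asIdeal)
  rw [Ne, Ideal.absNorm_eq_zero_iff]
  exact v.ne_bot

/-- Finitely many finite places contain a given non-zero natural number. -/
theorem finite_places_of_mem682 (n : ℕ) (hn : n ≠ 0) :
    {v : HeightOneSpectrum (𝓞 K) | ((n : ℕ) : 𝓞 K) ∈ v.asIdeal}.Finite := by
  have hI : Ideal.span {((n : ℕ) : 𝓞 K)} ≠ 0 := by
    rw [Ne, Ideal.zero_eq_bot, Ideal.span_singleton_eq_bot]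
    exact Nat.cast_ne_zero.mpr hn
  refine (Ideal.finite_factors hI).subset ?_
  intro v hv
  exact Ideal.dvd_iff_le.mpr ((Ideal.span_singleton_le_iff_mem _).mpr hv)

/-- Finitely many finite places lie over the primes of a finite set. -/
theorem finite_places_over682 (S : Finset ℕ) :
    {v : HeightOneSpectrum (𝓞 K) | ∃ p ∈ S, p.Prime ∧ ((p : ℕ) : 𝓞 K) ∈ v.asIdeal}.Finite := by
  classical
  have hm : (∏ p ∈ S.filter (fun p => p ≠ 0), p) ≠ 0 :=
    Finset.prod_ne_zero_iff.mpr fun p hp => (Finset.mem_filter.mp hp).2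
  refine (finite_places_of_mem682 (K := K) _ hm).subset ?_
  rintro v ⟨p, hpS, hp, hpv⟩
  have hmem : p ∈ S.filter (fun p => p ≠ 0) := Finset.mem_filter.mpr ⟨hpS, hp.ne_zero⟩
  obtain ⟨k, hk⟩ := Finset.dvd_prod_of_mem (fun p => p) hmem
  show ((∏ p ∈ S.filter (fun p => p ≠ 0), p : ℕ) : 𝓞 K) ∈ v.asIdeal
  rw [hk, Nat.cast_mul]
  exact v.asIdeal.mul_mem_right _ hpv

end Places

/-! ## 7. The leaf -/

/-- **LEAF T7.13a `DegenC`** (VERBATIM the Prop of `LT/T7/H37/ThinSpec.lean`). -/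
theorem degenC682 : Fermat.Agent.LT.T7.H37.DegenC := by
  intro ρ Ψ ι hyp nf π hmid
  obtain ⟨S, hS⟩ := hmid
  refine ⟨⟨S, fun p hp hpS A hA σ hσ w hw => ?_⟩, ?_⟩
  · obtain ⟨h1, hb⟩ := hS p hp hpS A hA σ hσ w hw
    exact ⟨hb, (point682 hyp.lift (ρ σ) _ _ h1 hb).1⟩
  · have hfin := finite_places_over682 (K := fieldF ρ) S
    refine ⟨hfin.toFinset, fun v hv => ?_⟩
    obtain ⟨p, hp, hpv⟩ := exists_prime_mem682 v
    have hpS : p ∉ S := fun h => hv (hfin.mem_toFinset.mpr ⟨p, h, hp, hpv⟩)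
    obtain ⟨A, σ, hA, hσ⟩ := Fermat.Agent.S54.exists_frobenius p hp
    obtain ⟨h1, hb⟩ := hS p hp hpS A hA σ hσ v hpv
    exact ⟨(point682 hyp.lift (ρ σ) _ _ h1 hb).2, hb⟩

end Fermat.Agent.LT.T7.H682

end
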